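import Fermat.Agent.RepTheory.OfMatrix
import Fermat.Agent.RepTheory.FrobTrace
import Mathlib.RingTheory.Filtration
import Mathlib.RingTheory.LocalRing.Quotient
import Mathlib.RingTheory.Ideal.GoingUp

/-!
# Finite algebras over a complete discrete valuation ring: topology lemmas

Submodules of finite modules are closed, and injective linear maps between finite modules are
topological embeddings for the adic topology.
-/

set_option autoImplicit false

namespace Fermat.Agent.HeckeRep

open IsLocalRing RepTheory

variable {O : Type} [CommRing O] [IsLocalRing O] [IsNoetherianRing O]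

/-- Krull intersection in a quotient: submodules of finite modules are closed. -/
theorem mem_of_forall_mem_sup {M : Type*} [AddCommGroup M] [Module O M] [Module.Finite O M]
    (N : Submodule O M) {x : M}
    (h : ∀ n : ℕ, x ∈ N ⊔ maximalIdeal O ^ n • ⊤) : x ∈ N := by
  have hx : N.mkQ x ∈ (⨅ n : ℕ, maximalIdeal O ^ n • ⊤ : Submodule O (M ⧸ N)) := by
    rw [Submodule.mem_iInf]
    intro n
    obtain ⟨y, hy, z, hz, rfl⟩ := Submodule.mem_sup.1 (h n)
    rw [map_add, Submodule.mkQ_apply N y, (Submodule.Quotient.mk_eq_zero N).2 hy, zero_add]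
    exact Submodule.smul_top_le_comap_smul_top _ N.mkQ hz
  rw [Ideal.iInf_pow_smul_eq_bot_of_isLocalRing _ (maximalIdeal.isMaximal O).ne_top,
    Submodule.mem_bot, Submodule.mkQ_apply, Submodule.Quotient.mk_eq_zero] at hx
  exact hx

/-- Artin–Rees: membership of the image in a high power gives membership in a given power. -/
theorem exists_mem_smul_of_map_mem {M M' : Type*} [AddCommGroup M] [Module O M]
    [AddCommGroup M'] [Module O M'] [Module.Finite O M'] (f : M →ₗ[O] M')
    (hf : Function.Injective f) (n : ℕ) :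
    ∃ k : ℕ, ∀ x : M, f x ∈ maximalIdeal O ^ k • (⊤ : Submodule O M') →
      x ∈ maximalIdeal O ^ n • (⊤ : Submodule O M) := by
  obtain ⟨c, hc⟩ := Ideal.exists_pow_inf_eq_pow_smul (maximalIdeal O) (LinearMap.range f)
  refine ⟨n + c, fun x hx => ?_⟩
  have h : f x ∈ maximalIdeal O ^ (n + c) • (⊤ : Submodule O M') ⊓ LinearMap.range f :=
    ⟨hx, x, rfl⟩
  rw [hc _ (Nat.le_add_left c n), Nat.add_sub_cancel] at h
  have h' : f x ∈ (maximalIdeal O ^ n • (⊤ : Submodule O M)).map f := by
    rw [Submodule.map_smul'', Submodule.map_top]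
    exact Submodule.smul_mono le_rfl inf_le_right h
  obtain ⟨y, hy, hxy⟩ := h'
  rwa [← hf hxy]

omit [IsNoetherianRing O] in
/-- In a local algebra finite over `O` a power of the maximal ideal lies in the extended one. -/
theorem exists_pow_le_map {R : Type} [CommRing R] [IsLocalRing R] [Algebra O R]
    [Module.Finite O R] :
    ∃ e : ℕ, maximalIdeal R ^ e ≤ (maximalIdeal O).map (algebraMap O R) := by
  let := Ideal.Quotient.field (maximalIdeal O)
  have : IsArtinianRing (O ⧸ maximalIdeal O) := inferInstance
  let I := (maximalIdeal O).map (algebraMap O R)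
  have : Module.Finite (O ⧸ maximalIdeal O) (R ⧸ I) :=
    Module.Finite.of_restrictScalars_finite O _ _
  have : IsArtinianRing (R ⧸ I) := IsArtinianRing.of_finite (O ⧸ maximalIdeal O) (R ⧸ I)
  exact exists_maximalIdeal_pow_le_of_isArtinianRing_quotient I

/-- The maximal ideal of the base extends into the maximal ideal. -/
theorem map_maximalIdeal_le (O R : Type) [CommRing O] [IsLocalRing O] [IsNoetherianRing O]
    [CommRing R] [IsLocalRing R] [Algebra O R] [Module.Finite O R] :
    (maximalIdeal O).map (algebraMap O R) ≤ maximalIdeal R := by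
  refine Ideal.map_le_iff_le_comap.2 (le_of_eq (IsLocalRing.eq_maximalIdeal ?_).symm)
  exact Ideal.isMaximal_comap_of_isIntegral_of_isMaximal _

omit [IsNoetherianRing O] in
/-- Congruences in a finite local algebra, expressed over the base. -/
theorem exists_pow_le_smul {R : Type} [CommRing R] [IsLocalRing R] [Algebra O R]
    [Module.Finite O R] : ∃ e : ℕ, ∀ n : ℕ, ∀ x ∈ maximalIdeal R ^ (e * n),
      x ∈ maximalIdeal O ^ n • (⊤ : Submodule O R) := by
  obtain ⟨e, he⟩ := exists_pow_le_map (O := O) (R := R)
  refine ⟨e, fun n x hx => ?_⟩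
  rw [Ideal.smul_top_eq_map, Submodule.restrictScalars_mem, Ideal.map_pow]
  rw [pow_mul] at hx
  exact Ideal.pow_right_mono he n hx

omit [IsLocalRing O] [IsNoetherianRing O] in
/-- A family with all members in a high power lies in a power of the base ideal. -/
theorem pi_mem_smul {ι : Type} [Finite ι] {R : Type} [AddCommGroup R] [Module O R] (I : Ideal O)
    (x : ι → R) (hx : ∀ i, x i ∈ I • (⊤ : Submodule O R)) :
    x ∈ I • (⊤ : Submodule O (ι → R)) := by
  classical
  cases nonempty_fintype ι
  rw [← Finset.univ_sum_single x]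
  exact Submodule.sum_mem _ fun i _ =>
    Submodule.smul_top_le_comap_smul_top I (LinearMap.single O (fun _ => R) i) (hx i)

omit [IsLocalRing O] [IsNoetherianRing O] in
/-- An algebra map between finite local algebras is local. -/
theorem isLocalHom_algHom {T R : Type} [CommRing T] [IsLocalRing T] [Algebra O T]
    [CommRing R] [IsLocalRing R] [Algebra O R] [Module.Finite O R] (χ : T →ₐ[O] R) :
    IsLocalHom χ.toRingHom := by
  have hR : (algebraMap O R).IsIntegral := fun x => Algebra.IsIntegral.isIntegral x
  have hint : χ.toRingHom.IsIntegral := by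
    have : (χ.toRingHom.comp (algebraMap O T)).IsIntegral := by
      rw [AlgHom.toRingHom_eq_coe, χ.comp_algebraMap]; exact hR
    exact RingHom.IsIntegral.tower_top _ _ this
  have := Ideal.isMaximal_comap_of_isIntegral_of_isMaximal' χ.toRingHom hint (maximalIdeal R)
  refine ((local_hom_TFAE χ.toRingHom).out 0 4).2 ?_
  exact IsLocalRing.eq_maximalIdeal this

/-- Entries of a continuous representation agree modulo a power on suitable classes. -/
theorem exists_field_entry_congr {A : Type} [CommRing A] [IsLocalRing A]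
    {r : Gal →* Matrix (Fin 2) (Fin 2) A} (hr : MatrixContinuous r) (n : ℕ) :
    ∃ L : IntermediateField ℚ (AlgebraicClosure ℚ), FiniteDimensional ℚ L ∧
      ∀ σ τ : Gal, (∀ x ∈ L, σ x = τ x) →
        ∀ i j, r σ i j - r τ i j ∈ maximalIdeal A ^ n := by
  obtain ⟨L, hL, h⟩ := hr n
  refine ⟨L, hL, fun σ τ hστ i j => ?_⟩
  have hfix : ∀ x ∈ L, (τ⁻¹ * σ) x = x := fun x hx => by
    rw [AlgEquiv.mul_apply, hστ x hx]; exact τ.symm_apply_apply x
  have key : r σ - r τ = r τ * (r (τ⁻¹ * σ) - 1) := by
    rw [mul_sub, mul_one, ← map_mul, mul_inv_cancel_left]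
  rw [← Matrix.sub_apply, key, Matrix.mul_apply]
  exact Submodule.sum_mem _ fun k _ => Ideal.mul_mem_left _ _ (h _ hfix k j)

/-- A finite family of finite extensions has a common one. -/
theorem exists_field_family {ι : Type} [Finite ι]
    {P : ι → IntermediateField ℚ (AlgebraicClosure ℚ) → Prop}
    (h : ∀ i, ∃ L : IntermediateField ℚ (AlgebraicClosure ℚ), FiniteDimensional ℚ L ∧ P i L)
    (hP : ∀ i (L L' : IntermediateField ℚ (AlgebraicClosure ℚ)), L ≤ L' → P i L → P i L') :
    ∃ L : IntermediateField ℚ (AlgebraicClosure ℚ), FiniteDimensional ℚ L ∧ ∀ i, P i L := by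
  choose L hL hPL using h
  exact ⟨⨆ i, L i, IntermediateField.finiteDimensional_iSup_of_finite,
    fun i => hP i _ _ (le_iSup L i) (hPL i)⟩

end Fermat.Agent.HeckeRep
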