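import Fermat.Agent.HeckeRep.Glue
import Fermat.Agent.RepTheory.DVRExtension
import Mathlib.FieldTheory.IntermediateField.Adjoin.Basic
import Mathlib.FieldTheory.IsAlgClosed.AlgebraicClosure

/-!
# Galois representations over a reduced finite local algebra from its points

A reduced local `O`-algebra, finite free over a complete discrete valuation ring `O` of
characteristic zero, all of whose points carry Galois representations with prescribed Frobenius
characteristic polynomials and whose residual representation is absolutely irreducible, carries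
such a representation itself.
-/

set_option autoImplicit false

open Polynomial

namespace Fermat.Agent.HeckeRep

open IsLocalRing RepTheory

variable (O : Type) [CommRing O] [IsDomain O] [IsDiscreteValuationRing O]

/-- Continuity measured by the maximal ideal of the base. -/
def ContOver {R : Type} [CommRing R] [Algebra O R] (r : Gal →* Matrix (Fin 2) (Fin 2) R) : Prop :=
  ∀ n : ℕ, ∃ L : IntermediateField ℚ (AlgebraicClosure ℚ), FiniteDimensional ℚ L ∧
    ∀ σ : Gal, (∀ x ∈ L, σ x = x) → ∀ i j,
      (r σ - 1) i j ∈ maximalIdeal O ^ n • (⊤ : Submodule O R)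

/-- Continuity measured by the base passes to images. -/
theorem ContOver.map {R R' : Type} [CommRing R] [Algebra O R] [CommRing R'] [Algebra O R']
    {r : Gal →* Matrix (Fin 2) (Fin 2) R} (hr : ContOver O r) (f : R →ₐ[O] R') :
    ContOver O (mapRep f.toRingHom r) := fun n => by
  obtain ⟨L, hL, h⟩ := hr n
  refine ⟨L, hL, fun σ hσ i j => ?_⟩
  have e : (mapRep f.toRingHom r σ - 1) i j = f.toLinearMap ((r σ - 1) i j) := by
    have : f.toRingHom.mapMatrix (r σ) - 1 = f.toRingHom.mapMatrix (r σ - 1) := by
      rw [map_sub, map_one]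
    exact congrFun₂ this i j
  rw [e]
  exact Submodule.smul_top_le_comap_smul_top _ f.toLinearMap (h σ hσ i j)

/-- Continuity measured by the base gives continuity. -/
theorem ContOver.matrixContinuous {R : Type} [CommRing R] [IsLocalRing R] [Algebra O R]
    [Module.Finite O R] {r : Gal →* Matrix (Fin 2) (Fin 2) R} (hr : ContOver O r) :
    MatrixContinuous r := fun n => by
  obtain ⟨L, hL, h⟩ := hr n
  refine ⟨L, hL, fun σ hσ i j => ?_⟩
  have := h σ hσ i j
  rw [Ideal.smul_top_eq_map, Submodule.restrictScalars_mem, Ideal.map_pow] at this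
  exact Ideal.pow_right_mono (map_maximalIdeal_le O R) n this

/-- The matrices of an adic representation over a finite local algebra. -/
theorem contOver_matRep {R : Type} [CommRing R] [IsLocalRing R] [Algebra O R] [Module.Finite O R]
    (ρ : GaloisRepAdic R) : ContOver O (matRep (adicBasis ρ) ρ.ρ) := fun n => by
  obtain ⟨e, he⟩ := exists_pow_le_smul (O := O) (R := R)
  obtain ⟨L, hL, h⟩ := ρ.isAdicContinuous (e * n)
  refine ⟨L, hL, fun σ hσ i j => he n _ ?_⟩
  have h1 : (matRep (adicBasis ρ) ρ.ρ σ - 1) i j =
      (adicBasis ρ).repr (ρ.ρ σ (adicBasis ρ j) - adicBasis ρ j) i := by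
    rw [Matrix.sub_apply, matRep_apply, LinearMap.toMatrix_apply, map_sub, Finsupp.sub_apply,
      Module.Basis.repr_self, Finsupp.single_apply, Matrix.one_apply]
    by_cases hij : i = j
    · subst hij; simp
    · simp [hij, Ne.symm hij]
  rw [h1]
  refine Submodule.smul_induction_on (h σ hσ (adicBasis ρ j)) (fun c hc v _ => ?_)
    (fun x y hx hy => ?_)
  · rw [map_smul, Finsupp.smul_apply, smul_eq_mul]; exact Ideal.mul_mem_right _ _ hc
  · rw [map_add, Finsupp.add_apply]; exact add_mem hx hy

local notation "K" => FractionRing O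
local notation "F" => AlgebraicClosure (FractionRing O)

variable {T : Type} [CommRing T] [Algebra O T] [Module.Finite O T]

/-- The images of a finite algebra lie in a finite extension. -/
theorem exists_field_range (j : T →ₐ[O] F) :
    ∃ L : IntermediateField K F, FiniteDimensional K L ∧ ∀ t, j t ∈ L := by
  obtain ⟨s, hs⟩ := Module.Finite.fg_top (R := O) (M := T)
  refine ⟨IntermediateField.adjoin K (j '' ↑s), ?_, fun t => ?_⟩
  · have : Finite (j '' (↑s : Set T)) := (s.finite_toSet.image j).to_subtype
    exact IntermediateField.finiteDimensional_adjoin fun x _ => Algebra.IsIntegral.isIntegral x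
  · have ht : t ∈ Submodule.span O (↑s : Set T) := by rw [hs]; trivial
    induction ht using Submodule.span_induction with
    | mem z hz => exact IntermediateField.subset_adjoin _ _ ⟨z, hz, rfl⟩
    | zero => rw [map_zero]; exact zero_mem _
    | add x y _ _ hx hy => rw [map_add]; exact add_mem hx hy
    | smul c x _ hx =>
      rw [Algebra.smul_def, map_mul, j.commutes, IsScalarTower.algebraMap_apply O K F]
      exact mul_mem (IntermediateField.algebraMap_mem _ _) hx

/-- Corestriction of a point to the integers of a finite extension. -/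
noncomputable def toIC (j : T →ₐ[O] F) (L : IntermediateField K F) (h : ∀ t, j t ∈ L) :
    T →ₐ[O] integralClosure O L :=
  let jL : T →ₐ[O] L :=
    { toRingHom := j.toRingHom.codRestrict L h
      commutes' := fun c => Subtype.ext (j.commutes c) }
  jL.codRestrict (integralClosure O L) fun t => (Algebra.IsIntegral.isIntegral t).map jL

omit [IsDiscreteValuationRing O] in
/-- The corestricted point has the values of the original one. -/
@[simp] theorem coe_toIC (j : T →ₐ[O] F) (L : IntermediateField K F) (h : ∀ t, j t ∈ L) (t : T) :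
    ((toIC O j L h t : L) : F) = j t := rfl

/-- Inclusion of rings of integers. -/
noncomputable def icIncl {L L' : IntermediateField K F} (h : L ≤ L') :
    integralClosure O L →ₐ[O] integralClosure O L' :=
  let f : integralClosure O L →ₐ[O] L' :=
    ((IntermediateField.inclusion h).restrictScalars O).comp (integralClosure O L).val
  f.codRestrict (integralClosure O L') fun x =>
    x.2.map ((IntermediateField.inclusion h).restrictScalars O)

omit [IsDiscreteValuationRing O] in
@[simp] theorem coe_icIncl {L L' : IntermediateField K F} (h : L ≤ L')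
    (x : integralClosure O L) : ((icIncl O h x : L') : F) = ((x : L) : F) := rfl

/-- Points of a reduced finite free algebra separate its elements. -/
theorem exists_point_ne_zero [CharZero O] [IsReduced T] [Module.Free O T] {x : T} (hx : x ≠ 0) :
    ∃ χ : T →ₐ[O] F, χ x ≠ 0 := by
  have htf : ∀ (c : O) (y : T), c • y = 0 → c = 0 ∨ y = 0 := fun c y h => by
    refine or_iff_not_imp_left.2 fun hc => ?_
    let b := Module.Free.chooseBasis O T
    refine b.repr.map_eq_zero_iff.1 (Finsupp.ext fun i => ?_)
    have := congrArg (fun z => b.repr z i) h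
    simpa [hc] using this
  let M : Submonoid T :=
    { carrier := {y | ∃ c : O, c ≠ 0 ∧ ∃ n : ℕ, y = c • x ^ n}
      one_mem' := ⟨1, one_ne_zero, 0, by simp⟩
      mul_mem' := by
        rintro _ _ ⟨c, hc, n, rfl⟩ ⟨c', hc', n', rfl⟩
        exact ⟨c * c', mul_ne_zero hc hc', n + n', by rw [smul_mul_smul_comm, pow_add]⟩ }
  have hM : Disjoint ((⊥ : Ideal T) : Set T) (M : Set T) := by
    refine Set.disjoint_left.2 ?_
    rintro y hy ⟨c, hc, n, rfl⟩
    exact hx (IsReduced.eq_zero x ⟨n, (htf c _
      (Submodule.mem_bot (R := T) |>.1 hy)).resolve_left hc⟩)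
  obtain ⟨P, hP, -, hPM⟩ := Ideal.exists_le_prime_disjoint ⊥ M hM
  have hxP : x ∉ P := fun h => Set.disjoint_left.1 hPM h ⟨1, one_ne_zero, 1, by simp⟩
  have hinj : Function.Injective (algebraMap O (T ⧸ P)) := by
    refine (injective_iff_map_eq_zero _).2 fun c hc => by_contra fun h => ?_
    rw [IsScalarTower.algebraMap_apply O T (T ⧸ P), Ideal.Quotient.algebraMap_eq,
      Ideal.Quotient.eq_zero_iff_mem] at hc
    exact Set.disjoint_left.1 hPM hc ⟨c, h, 0, by simp [Algebra.smul_def]⟩
  have : FaithfulSMul O (T ⧸ P) := (faithfulSMul_iff_algebraMap_injective _ _).2 hinj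
  have : FaithfulSMul O F := (faithfulSMul_iff_algebraMap_injective _ _).2 (by
    rw [IsScalarTower.algebraMap_eq O K F]
    exact (algebraMap K F).injective.comp (IsFractionRing.injective O K))
  let j : T ⧸ P →ₐ[O] F := IsAlgClosed.lift
  refine ⟨j.comp (Ideal.Quotient.mkₐ O P), fun h => hxP ?_⟩
  have hker : RingHom.ker j.toRingHom = ⊥ := by
    refine Ideal.eq_bot_of_comap_eq_bot (R := O) ?_
    rw [eq_bot_iff]
    intro c hc
    rw [Ideal.mem_comap, RingHom.mem_ker] at hc
    rw [Submodule.mem_bot]
    exact (faithfulSMul_iff_algebraMap_injective O F).1 inferInstance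
      ((j.commutes c).symm.trans (hc.trans (map_zero _).symm))
  have : Ideal.Quotient.mk P x ∈ RingHom.ker j.toRingHom := h
  rwa [hker, Submodule.mem_bot, Ideal.Quotient.eq_zero_iff_mem] at this

variable [IsAdicComplete (maximalIdeal O) O] [CharZero O] [Finite (ResidueField O)]

/-- Every point over a finite extension carries a representation with the prescribed Frobenius
characteristic polynomials, unramified outside `S`. -/
def PointReps (T : Type) [CommRing T] [Algebra O T] (S : Set ℕ) (a d : ℕ → T) : Prop :=
  ∀ (O' : Type) [CommRing O'] [IsDomain O'] [IsDiscreteValuationRing O']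
    [IsAdicComplete (maximalIdeal O') O'] [Finite (ResidueField O')] [CharZero O']
    [Algebra O O'] [Module.Finite O O'] [IsLocalHom (algebraMap O O')] (χ : T →ₐ[O] O'),
    ∃ (O'' : Type) (_ : CommRing O'') (_ : IsDomain O'') (_ : IsLocalRing O'')
      (_ : Algebra O' O'') (_ : Module.Finite O' O''),
      Function.Injective (algebraMap O' O'') ∧ ∃ ρ : GaloisRepAdic O'',
        (∀ ℓ φ, FrobAt S ℓ φ → LinearMap.charpoly (ρ.ρ φ) =
          X ^ 2 - C (algebraMap O' O'' (χ (a ℓ))) * X + C (algebraMap O' O'' (χ (d ℓ)))) ∧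
        ∀ q : ℕ, q.Prime → q ∉ S → ρ.IsUnramifiedAt q

/-- Trace and determinant of a `2 × 2` matrix, read off its characteristic polynomial. -/
theorem trace_det_of_charpoly {A : Type} [CommRing A] [Nontrivial A]
    {M : Matrix (Fin 2) (Fin 2) A} {a d : A} (h : M.charpoly = X ^ 2 - C a * X + C d) :
    M.trace = a ∧ M.det = d := by
  rw [Matrix.charpoly_fin_two] at h
  have h0 := congrArg (fun q => coeff q 0) h
  have h1 := congrArg (fun q => coeff q 1) h
  simp [coeff_X_pow, coeff_C] at h0 h1
  exact ⟨h1, h0⟩

/-- The representation at one point, over the integers of a finite extension. -/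
theorem exists_pointRep {S : Set ℕ} {a d : ℕ → T} (hpts : PointReps O T S a d) (j : T →ₐ[O] F) :
    ∃ (L : IntermediateField K F) (_ : FiniteDimensional K L)
      (r : Gal →* Matrix (Fin 2) (Fin 2) (integralClosure O L)),
      (∀ t, j t ∈ L) ∧ ContOver O r ∧
      (∀ ℓ φ, FrobAt S ℓ φ → (((r φ).trace : L) : F) = j (a ℓ) ∧
        (((r φ).det : L) : F) = j (d ℓ)) ∧
      ∀ q : ℕ, q.Prime → q ∉ S → ∀ P : ValuationSubring (AlgebraicClosure ℚ),
        P.LiesOverPrime q → ∀ σ ∈ P.inertiaSubgroupIn ℚ, r σ = 1 := by
  obtain ⟨L, hL, hjL⟩ := exists_field_range O j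
  let O' := integralClosure O L
  have := isLocalRing_integralClosure O L
  have := isDiscreteValuationRing_integralClosure O L
  have := isAdicComplete_integralClosure O L
  have := finite_residueField_integralClosure O L
  have := charZero_integralClosure O L
  have := finite_integralClosure O L
  have := isLocalHom_integralClosure O L
  obtain ⟨O'', iR, iD, iL, iA, iF, hinj, ρ, hρ, hunr⟩ := hpts O' (toIC O j L hjL)
  let algOO'' : Algebra O O'' := ((algebraMap O' O'').comp (algebraMap O O')).toAlgebra
  have : IsScalarTower O O' O'' := IsScalarTower.of_algebraMap_eq fun _ => rfl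
  have : Module.Finite O O'' := Module.Finite.trans O' O''
  have htow : IsScalarTower O O' F := IsScalarTower.of_algebraMap_eq fun c => by
    rw [IsScalarTower.algebraMap_apply O K F]
    rfl
  have : Module.IsTorsionFree O' O'' := Module.isTorsionFree_iff_algebraMap_injective.2 hinj
  have : Module.IsTorsionFree O' F := Module.isTorsionFree_iff_algebraMap_injective.2
    ((algebraMap L F).injective.comp Subtype.val_injective)
  let g : O'' →ₐ[O'] F := IsAlgClosed.lift
  let gO : O'' →ₐ[O] F := g.restrictScalars O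
  obtain ⟨L', hL', hgL'⟩ := exists_field_range O gO
  have hjL' : ∀ t, j t ∈ L' := fun t => by
    have := hgL' (algebraMap O' O'' (toIC O j L hjL t))
    rwa [show gO (algebraMap O' O'' (toIC O j L hjL t)) = j t from g.commutes _] at this
  let gi := toIC O gO L' hgL'
  refine ⟨L', hL', mapRep gi.toRingHom (matRep (adicBasis ρ) ρ.ρ), hjL',
    (contOver_matRep O ρ).map O gi, fun ℓ φ hφ => ?_, fun q hq hqS P hP σ hσ => ?_⟩
  · obtain ⟨ht, hd⟩ := trace_det_of_charpoly
      ((charpoly_matRep (adicBasis ρ) ρ.ρ φ).trans (hρ ℓ φ hφ))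
    refine ⟨?_, ?_⟩
    · rw [show (mapRep gi.toRingHom (matRep (adicBasis ρ) ρ.ρ) φ).trace =
          gi (matRep (adicBasis ρ) ρ.ρ φ).trace from
        (AddMonoidHom.map_trace gi.toRingHom.toAddMonoidHom _).symm, ht]
      exact g.commutes (toIC O j L hjL (a ℓ))
    · rw [show (mapRep gi.toRingHom (matRep (adicBasis ρ) ρ.ρ) φ).det =
          gi (matRep (adicBasis ρ) ρ.ρ φ).det from (RingHom.map_det gi.toRingHom _).symm, hd]
      exact g.commutes (toIC O j L hjL (d ℓ))
  · rw [mapRep_apply, matRep_apply, hunr q hq hqS P hP σ hσ, LinearMap.toMatrix_one,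
      Matrix.map_one _ (map_zero gi.toRingHom) (map_one gi.toRingHom)]

variable [IsLocalRing T] [IsAdicComplete (maximalIdeal T) T]

/-- **Representation over `T` from its points.** -/
theorem exists_adic_of_pointReps [IsReduced T] [Module.Free O T]
    (hsurj : Function.Surjective (residue T ∘ algebraMap O T))
    {S : Set ℕ} (hS : FrobGenerates S) (a d : ℕ → T) (hpts : PointReps O T S a d)
    (ρbar : ResidualGaloisRep (ResidueField T)) (habs : ρbar.IsAbsolutelyIrreducible)
    (hρbar : ∀ ℓ φ, FrobAt S ℓ φ → LinearMap.charpoly (ρbar.ρ φ) =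
      X ^ 2 - C (residue T (a ℓ)) * X + C (residue T (d ℓ))) :
    ∃ ρ : GaloisRepAdic T,
      (∀ ℓ φ, FrobAt S ℓ φ → LinearMap.charpoly (ρ.ρ φ) = X ^ 2 - C (a ℓ) * X + C (d ℓ)) ∧
      ρ.residual.IsAbsolutelyIrreducible ∧
      ∀ q : ℕ, q.Prime → q ∉ S → ρ.IsUnramifiedAt q := by
  classical
  choose L hL r hjL hr hfrob hunr using exists_pointRep O hpts
  let M : IntermediateField K F := ⨆ j : T →ₐ[O] F, L j
  have : ∀ j, FiniteDimensional K (L j) := hL
  have : FiniteDimensional K M := IntermediateField.finiteDimensional_iSup_of_finite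
  have hle : ∀ j, L j ≤ M := fun j => le_iSup L j
  let R := integralClosure O M
  have := isLocalRing_integralClosure O M
  have := finite_integralClosure O M
  let χ : (T →ₐ[O] F) → T →ₐ[O] R := fun j => toIC O j M fun t => hle j (hjL j t)
  let r' : (T →ₐ[O] F) → Gal →* Matrix (Fin 2) (Fin 2) R := fun j =>
    mapRep (icIncl O (hle j)).toRingHom (r j)
  have hχ : Function.Injective fun (t : T) j => χ j t := fun t t' h => by
    by_contra hne
    obtain ⟨j, hj⟩ := exists_point_ne_zero O (sub_ne_zero.2 hne)
    refine hj ?_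
    rw [map_sub, sub_eq_zero]
    exact congrArg (fun z : R => ((z : M) : F)) (congrFun h j)
  have hfrob' : ∀ j ℓ φ, FrobAt S ℓ φ →
      (r' j φ).trace = χ j (a ℓ) ∧ (r' j φ).det = χ j (d ℓ) := fun j ℓ φ hφ => by
    refine ⟨Subtype.ext (Subtype.ext ?_), Subtype.ext (Subtype.ext ?_)⟩
    · rw [show (r' j φ).trace = icIncl O (hle j) (r j φ).trace from
        (AddMonoidHom.map_trace (icIncl O (hle j)).toRingHom.toAddMonoidHom _).symm]
      exact (hfrob j ℓ φ hφ).1
    · rw [show (r' j φ).det = icIncl O (hle j) (r j φ).det from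
        (RingHom.map_det (icIncl O (hle j)).toRingHom _).symm]
      exact (hfrob j ℓ φ hφ).2
  obtain ⟨ρT, hcont, hT, hfull, hker⟩ := exists_glue hsurj χ hχ hS a d r'
    (fun j => ((hr j).map O _).matrixContinuous O) hfrob' (matRep (resBasis ρbar) ρbar.ρ)
    (isFull_of_isAbsolutelyIrreducible ρbar habs _)
    (by
      obtain ⟨L₀, hL₀, h₀⟩ := ρbar.factorsThroughFiniteLevel
      exact ⟨L₀, hL₀, fun σ hσ => by rw [matRep_apply, h₀ σ hσ, LinearMap.toMatrix_one]⟩)
    (fun ℓ φ hφ => trace_det_of_charpoly
      ((charpoly_matRep (resBasis ρbar) ρbar.ρ φ).trans (hρbar ℓ φ hφ)))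
  refine ⟨adicOfMatrix ρT hcont, fun ℓ φ hφ => ?_, ?_, fun q hq hqS P hP σ hσ => ?_⟩
  · rw [charpoly_adicOfMatrix, (hT ℓ φ hφ).1, (hT ℓ φ hφ).2]
  · refine isAbsolutelyIrreducible_of_span_eq_top _ ((isFull_matRep_iff
      ((Pi.basisFun T (Fin 2)).baseChange (ResidueField T)) _).1 ?_)
    have hmat : matRep (Pi.basisFun T (Fin 2)) (adicOfMatrix ρT hcont).ρ = ρT := by
      refine MonoidHom.ext fun g => ?_
      show LinearMap.toMatrix (Pi.basisFun T (Fin 2)) _ (Matrix.toLin' (ρT g)) = ρT g
      rw [LinearMap.toMatrix_eq_toMatrix', LinearMap.toMatrix'_toLin']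
    have := (matRep_residual (adicOfMatrix ρT hcont) (Pi.basisFun T (Fin 2))).trans
      (congrArg (mapRep (residue T)) hmat)
    exact this.symm ▸ hfull
  · refine adicOfMatrix_eq_one ρT hcont (hker σ fun j => ?_)
    show mapRep (icIncl O (hle j)).toRingHom (r j) σ = 1
    rw [mapRep_apply, hunr j q hq hqS P hP σ hσ,
      Matrix.map_one _ (map_zero (icIncl O (hle j)).toRingHom)
        (map_one (icIncl O (hle j)).toRingHom)]

end Fermat.Agent.HeckeRep
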