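import Fermat.Agent.HeckeRep.Reduced
import Fermat.Agent.Petersson.Semisimple
import Fermat.Prelude.Def_CuspForm_HeckeLocal
import Mathlib.RingTheory.LocalProperties.Reduced

/-!
# Structure of the localised Hecke algebra

The localised anemic Hecke algebra is reduced, generated by the Hecke operators, has the residue
field of the coefficient ring, and receives all congruent integral points.
-/

set_option autoImplicit false

open scoped TensorProduct IsMulCommutative

namespace Fermat.Agent.HeckeRep

open IsLocalRing

variable (N : ℕ) [NeZero N] (S : Set ℕ) (O : Type) [CommRing O] [IsDomain O]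
  [IsDiscreteValuationRing O] (θ : CuspForm.heckeAlgebra N 2 S →+* ResidueField O)

local notation "T" => CuspForm.heckeLocal N S O θ
local notation "H" => TensorProduct ℤ O (Subtype (· ∈ CuspForm.heckeAlgebra N 2 S))

/-- The anemic Hecke algebra base changed to `O` maps to the localisation. -/
noncomputable def toLocal : H →+* T :=
  (algebraMap (CuspForm.heckeBaseAlgebra N S O) T).comp (CuspForm.latticeBaseChange N S O)

/-- `toLocal` is compatible with the structure maps from `O`. -/
theorem toLocal_algebraMap (c : O) : toLocal N S O θ (algebraMap O H c) = algebraMap O T c := by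
  rw [toLocal, RingHom.comp_apply, CuspForm.latticeBaseChange_algebraMap,
    ← IsScalarTower.algebraMap_apply]

/-- `toLocal` sends `1 ⊗ t` to the image of `t` in the localised algebra. -/
theorem toLocal_one_tmul (t : CuspForm.heckeAlgebra N 2 S) :
    toLocal N S O θ ((1 : O) ⊗ₜ[ℤ] t) = CuspForm.heckeLocal.π N S O θ t := rfl

theorem toLocal_surjective [IsAdicComplete (maximalIdeal O) O] :
    Function.Surjective (toLocal N S O θ) := by
  intro z
  obtain ⟨⟨b, ⟨s, hs⟩⟩, hbs⟩ := IsLocalization.surj (CuspForm.heckeLocalSubmonoid N S O θ) z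
  obtain ⟨a, ha, rfl⟩ := hs
  obtain ⟨a', rfl⟩ := CuspForm.latticeBaseChange_surjective N S O b
  replace hbs : z * toLocal N S O θ a = toLocal N S O θ a' := hbs
  have hu : IsUnit (toLocal N S O θ a) :=
    IsLocalization.map_units T (⟨_, a, ha, rfl⟩ : CuspForm.heckeLocalSubmonoid N S O θ)
  let B := (toLocal N S O θ).range
  have hint : B.subtype.IsIntegral := by
    let iO : O →+* B := (algebraMap O T).codRestrict B fun c =>
      ⟨algebraMap O H c, toLocal_algebraMap N S O θ c⟩
    exact RingHom.IsIntegral.tower_top iO B.subtype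
      fun x => Algebra.IsIntegral.isIntegral (R := O) x
  have := RingHom.IsIntegral.isLocalHom hint Subtype.val_injective
  obtain ⟨u, hu'⟩ := isUnit_of_map_unit B.subtype ⟨_, a, rfl⟩ hu
  obtain ⟨w, hw⟩ := (↑u⁻¹ : B).2
  refine ⟨a' * w, ?_⟩
  have h1 : toLocal N S O θ a * toLocal N S O θ w = 1 := by
    rw [hw]
    have := congrArg Subtype.val u.mul_inv
    rw [hu'] at this
    exact this
  rw [map_mul, ← hbs, mul_assoc, h1, mul_one]

/-- The Hecke operators generate the localised Hecke algebra over `O`. -/
theorem adjoin_range_π [IsAdicComplete (maximalIdeal O) O] :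
    Algebra.adjoin O (Set.range (CuspForm.heckeLocal.π N S O θ)) = ⊤ := by
  refine top_unique fun z hz => ?_
  clear hz
  obtain ⟨x, rfl⟩ := toLocal_surjective N S O θ z
  induction x using TensorProduct.induction_on with
  | zero => rw [map_zero]; exact zero_mem _
  | tmul c t =>
    rw [show (c ⊗ₜ[ℤ] t : H) = algebraMap O H c * ((1 : O) ⊗ₜ[ℤ] t) by
      rw [Algebra.TensorProduct.algebraMap_apply, Algebra.TensorProduct.tmul_mul_tmul, one_mul,
        mul_one]; rfl, map_mul, toLocal_algebraMap, toLocal_one_tmul]
    exact mul_mem (Subalgebra.algebraMap_mem _ c) (Algebra.subset_adjoin ⟨t, rfl⟩)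
  | add x y hx hy => rw [map_add]; exact add_mem hx hy

/-- The localised anemic Hecke algebra is reduced. -/
theorem isReduced_heckeLocal [CharZero O] [hint : Fact (CuspForm.HasIntegralStructure N 2)]
    (hNS : ∀ q : ℕ, q.Prime → q ∣ N → q ∈ S) : IsReduced T := by
  have := Petersson.isReduced_heckeAlgebra (N := N) (k := 2) hNS
  let e : CuspForm.heckeAlgebra N 2 S ≃ₐ[ℤ] CuspForm.heckeLatticeAlgebra N S :=
    AlgEquiv.ofBijective (CuspForm.latticeRestrictHom N S)
      (CuspForm.latticeRestrictHom_bijective N S hint.out)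
  have : IsReduced (CuspForm.heckeLatticeAlgebra N S) :=
    isReduced_of_injective e.symm e.symm.injective
  have hB : IsReduced (CuspForm.heckeBaseAlgebra N S O) :=
    isReduced_tensor_of_charZero (CuspForm.heckeLatticeAlgebra N S) O
  exact isReduced_localizationPreserves (CuspForm.heckeLocalSubmonoid N S O θ) T hB

variable [Fact (CuspForm.HasIntegralStructure N 2)]

theorem toLocal_mem_maximalIdeal {x : H} (hx : x ∈ CuspForm.heckeCharKernel N S O θ) :
    toLocal N S O θ x ∈ maximalIdeal T := by
  rw [toLocal, RingHom.comp_apply,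
    IsLocalization.AtPrime.to_map_mem_maximal_iff T (CuspForm.heckeLocalIdeal N S O θ)]
  exact Ideal.mem_map_of_mem _ hx

theorem residue_toLocal (x : H) :
    residue T (toLocal N S O θ x) =
      ResidueField.map (algebraMap O T) (CuspForm.residualCharacter N S O θ x) := by
  obtain ⟨c, hc⟩ := residue_surjective (R := O) (CuspForm.residualCharacter N S O θ x)
  have hker : x - algebraMap O H c ∈ CuspForm.heckeCharKernel N S O θ := by
    rw [CuspForm.mem_heckeCharKernel_iff, map_sub, CuspForm.residualCharacter_algebraMap, hc,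
      sub_self]
  have := toLocal_mem_maximalIdeal N S O θ hker
  rw [map_sub, toLocal_algebraMap, ← residue_eq_zero_iff, map_sub, sub_eq_zero] at this
  rw [this, ← hc]
  rfl

/-- A Hecke operator reduces to its eigenvalue under `θ`. -/
theorem residue_π (t : CuspForm.heckeAlgebra N 2 S) :
    residue T (CuspForm.heckeLocal.π N S O θ t) = ResidueField.map (algebraMap O T) (θ t) := by
  rw [← toLocal_one_tmul, residue_toLocal, CuspForm.residualCharacter_tmul, map_one, one_mul]

/-- The localised Hecke algebra has the residue field of `O`. -/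
theorem residue_surjective_local : Function.Surjective (residue T ∘ algebraMap O T) := by
  intro z
  obtain ⟨z, rfl⟩ := residue_surjective z
  obtain ⟨⟨b, ⟨s, hs⟩⟩, hbs⟩ :=
    IsLocalization.surj (CuspForm.heckeLocalSubmonoid N S O θ) z
  obtain ⟨a, ha, rfl⟩ := hs
  obtain ⟨a', rfl⟩ := CuspForm.latticeBaseChange_surjective N S O b
  replace hbs : z * toLocal N S O θ a = toLocal N S O θ a' := hbs
  have hne : CuspForm.residualCharacter N S O θ a ≠ 0 := fun h =>
    Ideal.mem_primeCompl_iff.1 ha ((CuspForm.mem_heckeCharKernel_iff N S O θ a).2 h)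
  obtain ⟨c, hc⟩ := residue_surjective (R := O)
    (CuspForm.residualCharacter N S O θ a' * (CuspForm.residualCharacter N S O θ a)⁻¹)
  refine ⟨c, ?_⟩
  have hz := congrArg (residue T) hbs
  rw [map_mul, residue_toLocal, residue_toLocal] at hz
  show residue T (algebraMap O T c) = residue T z
  rw [show residue T (algebraMap O T c) = ResidueField.map (algebraMap O T) (residue O c) from rfl,
    hc, map_mul, map_inv₀, ← hz, mul_assoc, mul_inv_cancel₀ ((map_ne_zero _).2 hne), mul_one]

/-- An integral character congruent to `θ` factors through the localised Hecke algebra. -/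
theorem exists_point (χ : CuspForm.heckeAlgebra N 2 S →+* O)
    (hχ : ∀ t, residue O (χ t) = θ t) :
    ∃ ψ : T →ₐ[O] O, ∀ t, ψ (CuspForm.heckeLocal.π N S O θ t) = χ t := by
  let ψ₀ : H →ₐ[ℤ] O := Algebra.TensorProduct.productMap (AlgHom.id ℤ O) χ.toIntAlgHom
  have hres : ∀ x : H, residue O (ψ₀ x) = CuspForm.residualCharacter N S O θ x := fun x => by
    induction x using TensorProduct.induction_on with
    | zero => simp
    | tmul c t =>
      show residue O (c * χ t) = _
      rw [map_mul, hχ, CuspForm.residualCharacter_tmul]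
    | add x y hx hy => rw [map_add, map_add, map_add, hx, hy]
  let e : H ≃+* CuspForm.heckeBaseAlgebra N S O :=
    RingEquiv.ofBijective (CuspForm.latticeBaseChange N S O)
      ⟨CuspForm.latticeBaseChange_injective N S O Fact.out,
        CuspForm.latticeBaseChange_surjective N S O⟩
  let g : CuspForm.heckeBaseAlgebra N S O →+* O := ψ₀.toRingHom.comp e.symm.toRingHom
  have hg : ∀ x : H, g (CuspForm.latticeBaseChange N S O x) = ψ₀ x := fun x => by
    show ψ₀ (e.symm (e x)) = ψ₀ x
    rw [RingEquiv.symm_apply_apply]
  have hunit : ∀ y : CuspForm.heckeLocalSubmonoid N S O θ, IsUnit (g y) := by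
    rintro ⟨_, a, ha, rfl⟩
    rw [show g _ = ψ₀ a from hg a, ← residue_ne_zero_iff_isUnit, hres]
    exact fun h => Ideal.mem_primeCompl_iff.1 ha ((CuspForm.mem_heckeCharKernel_iff N S O θ a).2 h)
  let l : T →+* O := IsLocalization.lift hunit
  have hl : ∀ x : H, l (toLocal N S O θ x) = ψ₀ x := fun x =>
    (IsLocalization.lift_eq hunit _).trans (hg x)
  refine ⟨{ toRingHom := l, commutes' := fun c => ?_ }, fun t => ?_⟩
  · show l (algebraMap O T c) = c
    rw [← toLocal_algebraMap, hl]
    show ψ₀ (c ⊗ₜ[ℤ] 1) = c
    simp [ψ₀]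
  · show l (CuspForm.heckeLocal.π N S O θ t) = χ t
    rw [← toLocal_one_tmul, hl]
    show (1 : O) * χ t = χ t
    rw [one_mul]

end Fermat.Agent.HeckeRep
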