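import Fermat.Agent.HeckeRep.Congruence
import Fermat.Agent.RepTheory.Descent
import Fermat.Agent.RepTheory.GaloisBridge

/-!
# Gluing representations over the points of a finite local algebra

If every point `χ i` of a complete local `O`-algebra `T` carries a continuous two-dimensional
representation with Frobenius traces and determinants `χ i (a ℓ)`, `χ i (d ℓ)`, and all share an
absolutely irreducible reduction, then they come from one representation over `T`.
-/

set_option autoImplicit false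

open Matrix

namespace Fermat.Agent.HeckeRep

open IsLocalRing RepTheory

/-- `φ` is a Frobenius element at the prime `ℓ`, outside `S`. -/
def FrobAt (S : Set ℕ) (ℓ : ℕ) (φ : Gal) : Prop :=
  ℓ.Prime ∧ ℓ ∉ S ∧ ∃ P : ValuationSubring (AlgebraicClosure ℚ),
    P.LiesOverPrime ℓ ∧ P.IsFrobeniusAt φ ℓ

theorem exists_frobAt_congr {S : Set ℕ} (hS : FrobGenerates S)
    (L : IntermediateField ℚ (AlgebraicClosure ℚ)) (hL : FiniteDimensional ℚ L) (σ : Gal) :
    ∃ ℓ φ, FrobAt S ℓ φ ∧ ∃ a : ℕ, ∀ x ∈ L, σ x = (φ ^ a) x := by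
  obtain ⟨ℓ, hℓ, hℓS, P, hP, φ, hφ, a, ha⟩ := hS L hL σ
  exact ⟨ℓ, φ, ⟨hℓ, hℓS, P, hP, hφ⟩, a, ha⟩

section Ring

variable (R : Type) [CommRing R] [IsLocalRing R] (ι : Type)

/-- Families with a common residue. -/
def congrSubring : Subring (ι → R) where
  carrier := {x | ∀ i j, residue R (x i) = residue R (x j)}
  mul_mem' {x y} hx hy i j := by simp [hx i j, hy i j]
  one_mem' i j := rfl
  add_mem' {x y} hx hy i j := by simp [hx i j, hy i j]
  zero_mem' i j := rfl
  neg_mem' {x} hx i j := by simp [hx i j]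

variable {R ι}

theorem residue_congrSubring (x : congrSubring R ι) (i j : ι) :
    residue R ((x : ι → R) i) = residue R ((x : ι → R) j) :=
  x.2 i j

theorem congrSubring_isUnit_iff (i₀ : ι) (x : congrSubring R ι) :
    IsUnit x ↔ residue R ((x : ι → R) i₀) ≠ 0 := by
  refine ⟨fun h => residue_ne_zero_iff_isUnit _ |>.2 (h.map ((Pi.evalRingHom _ i₀).comp
    (congrSubring R ι).subtype)), fun h => ?_⟩
  have hu : ∀ i, IsUnit ((x : ι → R) i) := fun i =>
    (residue_ne_zero_iff_isUnit _).1 (residue_congrSubring x i i₀ ▸ h)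
  refine IsUnit.of_mul_eq_one (⟨fun i => ↑(hu i).unit⁻¹, fun i j => ?_⟩ : congrSubring R ι)
    (Subtype.ext (funext fun i => (hu i).mul_val_inv))
  have key : ∀ i, residue R ↑(hu i).unit⁻¹ = (residue R ((x : ι → R) i))⁻¹ := fun i => by
    refine eq_inv_of_mul_eq_one_left ?_
    rw [← map_mul, (hu i).val_inv_mul, map_one]
  rw [key, key, residue_congrSubring x i j]

variable [Nonempty ι]

instance congrSubring_isLocalRing : IsLocalRing (congrSubring R ι) := by
  obtain ⟨i₀⟩ := ‹Nonempty ι›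
  refine IsLocalRing.of_isUnit_or_isUnit_one_sub_self fun x => ?_
  by_cases h : residue R ((x : ι → R) i₀) = 0
  · refine Or.inr ((congrSubring_isUnit_iff i₀ _).2 ?_)
    show residue R ((1 : R) - (x : ι → R) i₀) ≠ 0
    rw [map_sub, map_one, h, sub_zero]; exact one_ne_zero
  · exact Or.inl ((congrSubring_isUnit_iff i₀ _).2 h)

/-- Evaluation at a member, modulo the maximal ideal. -/
noncomputable def congrResidue (i₀ : ι) : ResidueField (congrSubring R ι) →+* ResidueField R :=
  haveI : IsLocalHom ((residue R).comp ((Pi.evalRingHom _ i₀).comp (congrSubring R ι).subtype)) :=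
    ⟨fun x hx => (congrSubring_isUnit_iff i₀ x).2 hx.ne_zero⟩
  IsLocalRing.ResidueField.lift
    ((residue R).comp ((Pi.evalRingHom _ i₀).comp (congrSubring R ι).subtype))

end Ring

variable {O : Type} [CommRing O] [IsLocalRing O] [IsNoetherianRing O]
  {T : Type} [CommRing T] [IsLocalRing T] [IsAdicComplete (maximalIdeal T) T] [Algebra O T]
  [Module.Finite O T]
  {R : Type} [CommRing R] [IsLocalRing R] [Algebra O R] [Module.Finite O R]
  {ι : Type} [Finite ι]

omit [IsLocalRing T] [IsAdicComplete (maximalIdeal T) T] [Module.Finite O T] in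
/-- Traces lie in the image of `T`. -/
theorem exists_trace_preimage (χ : ι → T →ₐ[O] R)
    {S : Set ℕ} (hS : FrobGenerates S) (a d : ℕ → T)
    (r : ι → Gal →* Matrix (Fin 2) (Fin 2) R) (hr : ∀ i, MatrixContinuous (r i))
    (hfrob : ∀ i ℓ φ, FrobAt S ℓ φ → (r i φ).trace = χ i (a ℓ) ∧ (r i φ).det = χ i (d ℓ))
    (σ : Gal) : ∃ t : T, ∀ i, χ i t = (r i σ).trace := by
  let f : T →ₐ[O] (ι → R) :=
    { toRingHom := RingHom.pi fun i => (χ i).toRingHom
      commutes' := fun c => funext fun i => (χ i).commutes c }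
  suffices h : (fun i => (r i σ).trace) ∈ LinearMap.range f.toLinearMap by
    obtain ⟨t, ht⟩ := h
    exact ⟨t, fun i => congrFun ht i⟩
  refine mem_of_forall_mem_sup _ fun n => ?_
  obtain ⟨e, he⟩ := exists_pow_le_smul (O := O) (R := R)
  obtain ⟨L, hL, hLc⟩ := exists_field_family
    (P := fun i L => ∀ σ τ : Gal, (∀ x ∈ L, σ x = τ x) →
      ∀ a b, r i σ a b - r i τ a b ∈ maximalIdeal R ^ (e * n))
    (fun i => exists_field_entry_congr (hr i) _)
    (fun i L L' hLL h σ τ hστ => h σ τ fun x hx => hστ x (hLL hx))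
  obtain ⟨ℓ, φ, hφ, m, hm⟩ := exists_frobAt_congr hS L hL σ
  let M : Matrix (Fin 2) (Fin 2) (ι → R) := Matrix.of fun a b i => r i φ a b
  have hM : ∀ i, (Pi.evalRingHom (fun _ => R) i).mapMatrix M = r i φ := fun i => by
    ext a b; rfl
  have htr : M.trace ∈ f.toRingHom.range := ⟨a ℓ, funext fun i => by
    rw [Matrix.trace_fin_two]; show χ i (a ℓ) = _
    rw [← (hfrob i ℓ φ hφ).1, Matrix.trace_fin_two]; rfl⟩
  have hdet : M.det ∈ f.toRingHom.range := ⟨d ℓ, funext fun i => by
    show χ i (d ℓ) = Pi.evalRingHom (fun _ => R) i M.det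
    rw [RingHom.map_det, hM, (hfrob i ℓ φ hφ).2]⟩
  obtain ⟨t, ht⟩ := trace_pow_mem f.toRingHom.range htr hdet m
  refine Submodule.mem_sup.2 ⟨f t, ⟨t, rfl⟩, (fun i => (r i σ).trace) - f t,
    pi_mem_smul _ _ fun i => he n _ ?_, add_sub_cancel _ _⟩
  have hti : f t i = (r i (φ ^ m)).trace := by
    have hMm : (Pi.evalRingHom (fun _ => R) i).mapMatrix (M ^ m) = r i (φ ^ m) := by
      rw [map_pow, map_pow, hM]
    rw [show f t = (M ^ m).trace from ht, ← hMm, Matrix.trace_fin_two, Matrix.trace_fin_two]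
    rfl
  rw [Pi.sub_apply, hti, Matrix.trace_fin_two, Matrix.trace_fin_two]
  have h0 := hLc i σ (φ ^ m) hm 0 0
  have h1 := hLc i σ (φ ^ m) hm 1 1
  convert add_mem h0 h1 using 1
  ring

omit [IsLocalRing O] [IsNoetherianRing O] [IsAdicComplete (maximalIdeal T) T]
  [Module.Finite O T] [Finite ι] in
/-- All points of `T` induce the same map on residues, as `T` has the residue field of `O`. -/
theorem residue_algHom_eq (hsurj : Function.Surjective (residue T ∘ algebraMap O T))
    (χ₁ χ₂ : T →ₐ[O] R) (t : T) : residue R (χ₁ t) = residue R (χ₂ t) := by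
  obtain ⟨c, hc⟩ := hsurj (residue T t)
  have hm : t - algebraMap O T c ∈ maximalIdeal T := by
    rw [← residue_eq_zero_iff, map_sub, sub_eq_zero]; exact hc.symm
  have key : ∀ χ : T →ₐ[O] R, residue R (χ t) = residue R (algebraMap O R c) := fun χ => by
    have : IsLocalHom χ.toRingHom := isLocalHom_algHom χ
    have hmem : χ (t - algebraMap O T c) ∈ maximalIdeal R := map_nonunit χ.toRingHom _ hm
    rw [map_sub, χ.commutes, ← residue_eq_zero_iff, map_sub, sub_eq_zero] at hmem
    exact hmem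
  rw [key χ₁, key χ₂]

/-- A finite-level residual representation and the reduction of a continuous one have the same
traces once their Frobenius traces and determinants agree. -/
theorem trace_mapRep_residue_eq {S : Set ℕ} (hS : FrobGenerates S)
    (b : Gal →* Matrix (Fin 2) (Fin 2) (ResidueField R))
    (hb : ∃ L : IntermediateField ℚ (AlgebraicClosure ℚ), FiniteDimensional ℚ L ∧
      ∀ σ : Gal, (∀ x ∈ L, σ x = x) → b σ = 1)
    (r : Gal →* Matrix (Fin 2) (Fin 2) R) (hr : MatrixContinuous r)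
    (hfrob : ∀ ℓ φ, FrobAt S ℓ φ → (b φ).trace = (mapRep (residue R) r φ).trace ∧
      (b φ).det = (mapRep (residue R) r φ).det)
    (σ : Gal) : (b σ).trace = (mapRep (residue R) r σ).trace := by
  obtain ⟨L₀, hL₀, h₀⟩ := hb
  obtain ⟨L₁, hL₁, h₁⟩ := exists_field_entry_congr hr 1
  obtain ⟨ℓ, φ, hφ, m, hm⟩ := exists_frobAt_congr hS (L₀ ⊔ L₁) inferInstance σ
  have e₀ : b σ = b φ ^ m := by
    have hfix : ∀ x ∈ L₀, ((φ ^ m)⁻¹ * σ) x = x := fun x hx => by
      rw [AlgEquiv.mul_apply, hm x (le_sup_left (a := L₀) hx)]; exact (φ ^ m).symm_apply_apply x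
    rw [← map_pow, ← mul_one (b (φ ^ m)), ← h₀ _ hfix, ← map_mul, mul_inv_cancel_left]
  have e₁ : mapRep (residue R) r σ = mapRep (residue R) r φ ^ m := by
    rw [← map_pow]
    ext x y
    show residue R (r σ x y) = residue R (r (φ ^ m) x y)
    rw [← sub_eq_zero, ← map_sub, residue_eq_zero_iff]
    simpa using h₁ σ (φ ^ m) (fun z hz => hm z (le_sup_right (a := L₀) hz)) x y
  rw [e₀, e₁]
  exact trace_pow_eq (hfrob ℓ φ hφ).1 (hfrob ℓ φ hφ).2 m

/-- A representation whose reduction has the traces of a full residual representation `b` is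
conjugate to one reducing to `b`. -/
theorem exists_conj_reduction_eq {b : Gal →* Matrix (Fin 2) (Fin 2) (ResidueField R)}
    (hb : IsFull b) (r : Gal →* Matrix (Fin 2) (Fin 2) R)
    (htr : ∀ σ, (b σ).trace = (mapRep (residue R) r σ).trace) :
    ∃ P : (Matrix (Fin 2) (Fin 2) R)ˣ, ∀ g,
      ((↑P⁻¹ : Matrix (Fin 2) (Fin 2) R) * r g * (P : Matrix (Fin 2) (Fin 2) R)).map (residue R) =
        b g := by
  obtain ⟨Pb, hPb⟩ := hb.exists_conj_of_trace_eq (ρ₂ := mapRep (residue R) r) htr
  choose e he using fun x y => residue_surjective (R := R)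
    ((Pb : Matrix (Fin 2) (Fin 2) (ResidueField R)) x y)
  have hP : (residue R).mapMatrix (Matrix.of e) = (Pb : Matrix (Fin 2) (Fin 2) _) := by
    ext x y; exact he x y
  have hu : IsUnit (Matrix.of e) := by
    rw [Matrix.isUnit_iff_isUnit_det, ← residue_ne_zero_iff_isUnit, RingHom.map_det, hP]
    exact ((Matrix.isUnit_iff_isUnit_det _).1 Pb.isUnit).ne_zero
  refine ⟨hu.unit, fun g => ?_⟩
  have hinv : (residue R).mapMatrix (↑hu.unit⁻¹ : Matrix (Fin 2) (Fin 2) R) =
      (↑Pb⁻¹ : Matrix (Fin 2) (Fin 2) _) := by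
    refine (Units.mul_left_inj Pb).1 ?_
    conv_lhs => rw [← hP]
    rw [← map_mul, hu.val_inv_mul, map_one, Units.inv_mul]
  show (residue R).mapMatrix _ = _
  rw [map_mul, map_mul, hinv, IsUnit.unit_spec, hP, mul_assoc,
    show (residue R).mapMatrix (r g) = mapRep (residue R) r g from rfl, hPb g,
    Units.inv_mul_cancel_left]

omit [IsLocalRing O] [IsNoetherianRing O] [Module.Finite O T] [Finite ι] in
/-- A family of representations over the points with a common full reduction, with traces coming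
from `T` and residual entries coming from the residue field of `T`, descends to `T` up to
conjugation. -/
theorem exists_descent_of_congr (hsurj : Function.Surjective (residue T ∘ algebraMap O T))
    (χ : ι → T →ₐ[O] R) (hinj : Function.Injective fun (t : T) i => χ i t) (i₀ : ι)
    [IsLocalHom (χ i₀).toRingHom]
    (r : ι → Gal →* Matrix (Fin 2) (Fin 2) R)
    (b₀ : Gal →* Matrix (Fin 2) (Fin 2) (ResidueField T)) (hb₀ : IsFull b₀)
    (hres : ∀ i g, (r i g).map (residue R) =
      mapRep (ResidueField.map (χ i₀).toRingHom) b₀ g)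
    (htr : ∀ g, ∃ t, ∀ i, χ i t = (r i g).trace) :
    ∃ (ρT : Gal →* Matrix (Fin 2) (Fin 2) T) (U : ι → (Matrix (Fin 2) (Fin 2) R)ˣ),
      (∀ i g, (χ i).toRingHom.mapMatrix (ρT g) =
        (↑(U i)⁻¹ : Matrix (Fin 2) (Fin 2) R) * r i g * (U i : Matrix (Fin 2) (Fin 2) R)) ∧
      IsFull (mapRep (residue T) ρT) := by
  classical
  have : Nonempty ι := ⟨i₀⟩
  have := henselianLocalRing_of_isAdicComplete T
  set κ := ResidueField.map (χ i₀).toRingHom
  have hr : ∀ i g x y, residue R (r i g x y) = mapRep κ b₀ g x y := fun i g x y =>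
    congrFun₂ (hres i g) x y
  let A := congrSubring R ι
  let s : Gal →* Matrix (Fin 2) (Fin 2) A :=
    { toFun := fun g => Matrix.of fun x y =>
        ⟨fun i => r i g x y, fun i j => by rw [hr, hr]⟩
      map_one' := by
        ext x y i
        simp only [map_one, Matrix.of_apply, Matrix.one_apply]
        split_ifs <;> rfl
      map_mul' := fun g h => by
        ext x y i
        simp only [map_mul, Matrix.of_apply, Matrix.mul_apply, Fin.sum_univ_two]
        rfl }
  let θA : T →+* A := RingHom.codRestrict (RingHom.pi fun i => (χ i).toRingHom) A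
    fun t i j => residue_algHom_eq hsurj (χ i) (χ j) t
  let _ : Algebra T A := θA.toAlgebra
  have : IsLocalHom (algebraMap T A) := ⟨fun t ht =>
    isUnit_of_map_unit (χ i₀).toRingHom t (ht.map ((Pi.evalRingHom _ i₀).comp A.subtype))⟩
  obtain ⟨Q, ρT, hQ, hQρ⟩ := exists_descent (B := T) (A := A) (fun t t' h =>
      hinj (congrArg Subtype.val h)) s
    (fun g => by
      obtain ⟨t, ht⟩ := htr g
      refine ⟨t, Subtype.ext (funext fun i => ?_)⟩
      rw [Matrix.trace_fin_two]
      show χ i t = r i g 0 0 + r i g 1 1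
      rw [ht i, Matrix.trace_fin_two])
    (fun g x y => by
      obtain ⟨t, ht⟩ := residue_surjective (R := T) (b₀ g x y)
      refine ⟨t, (congrResidue i₀).injective ?_⟩
      show residue R (χ i₀ t) = residue R (r i₀ g x y)
      rw [hr, mapRep_apply, Matrix.map_apply, ← ht]; rfl)
    (IsFull.of_map (congrResidue i₀) (ρ := mapRep (residue A) s) (by
      rw [show mapRep (congrResidue i₀) (mapRep (residue A) s) = mapRep κ b₀ from
        MonoidHom.ext fun g => Matrix.ext fun x y => hr i₀ g x y]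
      exact hb₀.map κ))
  let ev : ι → A →+* R := fun i => (Pi.evalRingHom _ i).comp A.subtype
  have hev : ∀ i g, r i g * (ev i).mapMatrix (Q : Matrix (Fin 2) (Fin 2) A) =
      (ev i).mapMatrix (Q : Matrix (Fin 2) (Fin 2) A) * (χ i).toRingHom.mapMatrix (ρT g) := by
    intro i g
    have := congrArg (ev i).mapMatrix (hQρ g)
    rw [map_mul, map_mul] at this
    exact this
  let U : ι → (Matrix (Fin 2) (Fin 2) R)ˣ := fun i => Units.map (ev i).mapMatrix.toMonoidHom Q
  refine ⟨ρT, U, fun i g => ?_, IsFull.of_map κ ?_⟩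
  · rw [mul_assoc, show r i g * (U i : Matrix (Fin 2) (Fin 2) R) = (U i : Matrix _ _ R) *
      (χ i).toRingHom.mapMatrix (ρT g) from hev i g, Units.inv_mul_cancel_left]
  · rw [show mapRep κ (mapRep (residue T) ρT) = mapRep κ b₀ from ?_]
    · exact hb₀.map κ
    refine MonoidHom.ext fun g => ?_
    have h1 : (residue R).mapMatrix ((ev i₀).mapMatrix (Q : Matrix (Fin 2) (Fin 2) A)) = 1 := by
      ext x y
      show congrResidue i₀ (residue A ((Q : Matrix (Fin 2) (Fin 2) A) x y)) = _
      rw [show residue A ((Q : Matrix (Fin 2) (Fin 2) A) x y) = _ from Matrix.ext_iff.2 hQ x y,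
        Matrix.one_apply, Matrix.one_apply]
      split_ifs <;> simp
    have := congrArg (residue R).mapMatrix (hev i₀ g)
    rw [map_mul, map_mul, h1, mul_one, one_mul] at this
    exact this.symm.trans (hres i₀ g)

omit [IsAdicComplete (maximalIdeal T) T] in
/-- A representation over `T` whose points are conjugate to continuous ones is continuous. -/
theorem matrixContinuous_of_points (χ : ι → T →ₐ[O] R)
    (hinj : Function.Injective fun (t : T) i => χ i t)
    (r : ι → Gal →* Matrix (Fin 2) (Fin 2) R) (hr : ∀ i, MatrixContinuous (r i))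
    (ρT : Gal →* Matrix (Fin 2) (Fin 2) T) (W : ι → (Matrix (Fin 2) (Fin 2) R)ˣ)
    (hW : ∀ i g, (χ i).toRingHom.mapMatrix (ρT g) =
      (↑(W i)⁻¹ : Matrix (Fin 2) (Fin 2) R) * r i g * (W i : Matrix (Fin 2) (Fin 2) R)) :
    MatrixContinuous ρT := fun n => by
  obtain ⟨k, hk⟩ := exists_mem_smul_of_map_mem (LinearMap.pi fun i => (χ i).toLinearMap) hinj n
  obtain ⟨e, he⟩ := exists_pow_le_smul (O := O) (R := R)
  obtain ⟨L, hL, hLc⟩ := exists_field_family
    (P := fun i L => ∀ σ : Gal, (∀ x ∈ L, σ x = x) →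
      ∀ a b, (r i σ - 1) a b ∈ maximalIdeal R ^ (e * k))
    (fun i => hr i _) (fun i L L' hLL h σ hσ => h σ fun x hx => hσ x (hLL hx))
  refine ⟨L, hL, fun σ hσ x y => ?_⟩
  have hmem := hk ((ρT σ - 1) x y) (pi_mem_smul _ _ fun i => he k _ ?_)
  · rw [Ideal.smul_top_eq_map, Submodule.restrictScalars_mem, Ideal.map_pow] at hmem
    exact Ideal.pow_right_mono (map_maximalIdeal_le O T) n hmem
  · have key : (χ i).toRingHom.mapMatrix (ρT σ - 1) =
        (↑(W i)⁻¹ : Matrix (Fin 2) (Fin 2) R) * (r i σ - 1) *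
          (W i : Matrix (Fin 2) (Fin 2) R) := by
      rw [map_sub, map_one, hW, mul_sub, sub_mul, mul_one, Units.inv_mul]
    show χ i ((ρT σ - 1) x y) ∈ _
    rw [show χ i ((ρT σ - 1) x y) = (χ i).toRingHom.mapMatrix (ρT σ - 1) x y from rfl, key,
      Matrix.mul_apply]
    refine Submodule.sum_mem _ fun z _ => Ideal.mul_mem_right _ _ ?_
    rw [Matrix.mul_apply]
    exact Submodule.sum_mem _ fun w _ => Ideal.mul_mem_left _ _ (hLc i σ hσ w z)

/-- **Gluing.** Continuous representations at jointly injective points of `T` with the Frobenius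
traces and determinants of `T` and an absolutely irreducible reduction come from a continuous
representation over `T`. -/
theorem exists_glue (hsurj : Function.Surjective (residue T ∘ algebraMap O T))
    (χ : ι → T →ₐ[O] R) (hinj : Function.Injective fun (t : T) i => χ i t)
    {S : Set ℕ} (hS : FrobGenerates S) (a d : ℕ → T)
    (r : ι → Gal →* Matrix (Fin 2) (Fin 2) R) (hr : ∀ i, MatrixContinuous (r i))
    (hfrob : ∀ i ℓ φ, FrobAt S ℓ φ → (r i φ).trace = χ i (a ℓ) ∧ (r i φ).det = χ i (d ℓ))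
    (b₀ : Gal →* Matrix (Fin 2) (Fin 2) (ResidueField T)) (hb₀ : IsFull b₀)
    (hb₀lvl : ∃ L : IntermediateField ℚ (AlgebraicClosure ℚ), FiniteDimensional ℚ L ∧
      ∀ σ : Gal, (∀ x ∈ L, σ x = x) → b₀ σ = 1)
    (hb₀frob : ∀ ℓ φ, FrobAt S ℓ φ →
      (b₀ φ).trace = residue T (a ℓ) ∧ (b₀ φ).det = residue T (d ℓ)) :
    ∃ ρT : Gal →* Matrix (Fin 2) (Fin 2) T, MatrixContinuous ρT ∧
      (∀ ℓ φ, FrobAt S ℓ φ → (ρT φ).trace = a ℓ ∧ (ρT φ).det = d ℓ) ∧
      IsFull (mapRep (residue T) ρT) ∧
      ∀ σ, (∀ i, r i σ = 1) → ρT σ = 1 := by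
  classical
  obtain ⟨i₀⟩ : Nonempty ι := by
    by_contra hι
    rw [not_nonempty_iff] at hι
    exact zero_ne_one (hinj (funext fun i => hι.elim i) : (0 : T) = 1)
  have : IsLocalHom (χ i₀).toRingHom := isLocalHom_algHom (χ i₀)
  set κ : ResidueField T →+* ResidueField R := ResidueField.map (χ i₀).toRingHom
  have hκ : ∀ i t, residue R (χ i t) = κ (residue T t) := fun i t =>
    residue_algHom_eq hsurj (χ i) (χ i₀) t
  -- residual traces agree
  have htr₁ : ∀ i σ, (mapRep κ b₀ σ).trace = (mapRep (residue R) (r i) σ).trace := fun i => by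
    refine trace_mapRep_residue_eq hS _ (hb₀lvl.imp fun L hL => ⟨hL.1, fun σ hσ => ?_⟩) _ (hr i)
      fun ℓ φ hφ => ⟨?_, ?_⟩
    · rw [mapRep_apply, hL.2 σ hσ, Matrix.map_one _ (map_zero κ) (map_one κ)]
    · show ((b₀ φ).map κ).trace = ((r i φ).map (residue R)).trace
      rw [← AddMonoidHom.map_trace, ← AddMonoidHom.map_trace, (hb₀frob ℓ φ hφ).1,
        (hfrob i ℓ φ hφ).1]
      exact (hκ i _).symm
    · show (κ.mapMatrix (b₀ φ)).det = ((residue R).mapMatrix (r i φ)).det
      rw [← RingHom.map_det, ← RingHom.map_det, (hb₀frob ℓ φ hφ).2, (hfrob i ℓ φ hφ).2]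
      exact (hκ i _).symm
  -- conjugate each member to a common reduction, then descend
  choose P hP using fun i => exists_conj_reduction_eq (hb₀.map κ) (r i) (htr₁ i)
  let r' : ι → Gal →* Matrix (Fin 2) (Fin 2) R := fun i =>
    { toFun := fun g => (↑(P i)⁻¹ : Matrix (Fin 2) (Fin 2) R) * r i g * (P i : Matrix _ _ R)
      map_one' := by rw [map_one, mul_one, Units.inv_mul]
      map_mul' := fun g h => by simp only [map_mul, mul_assoc, Units.mul_inv_cancel_left] }
  obtain ⟨ρT, U, hU, hfull⟩ := exists_descent_of_congr hsurj χ hinj i₀ r' b₀ hb₀ hP fun g => by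
    obtain ⟨t, ht⟩ := exists_trace_preimage χ hS a d r hr hfrob g
    exact ⟨t, fun i => (ht i).trans (Matrix.trace_units_conj' (P i) _).symm⟩
  let W : ι → (Matrix (Fin 2) (Fin 2) R)ˣ := fun i => P i * U i
  have hW : ∀ i g, (χ i).toRingHom.mapMatrix (ρT g) =
      (↑(W i)⁻¹ : Matrix (Fin 2) (Fin 2) R) * r i g * (W i : Matrix (Fin 2) (Fin 2) R) :=
    fun i g => by
      rw [hU i g]
      simp only [r', W, MonoidHom.coe_mk, OneHom.coe_mk, _root_.mul_inv_rev, Units.val_mul,
        mul_assoc]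
  refine ⟨ρT, matrixContinuous_of_points χ hinj r hr ρT W hW,
    fun ℓ φ hφ => ⟨hinj (funext fun i => ?_), hinj (funext fun i => ?_)⟩, hfull,
    fun σ hσ => Matrix.ext fun x y => hinj (funext fun i => ?_)⟩
  · show χ i _ = χ i _
    rw [← (hfrob i ℓ φ hφ).1, ← Matrix.trace_units_conj' (W i) (r i φ), ← hW]
    exact AddMonoidHom.map_trace (χ i).toRingHom.toAddMonoidHom _
  · show χ i _ = χ i _
    rw [← (hfrob i ℓ φ hφ).2, ← Matrix.det_units_conj' (W i) (r i φ)]
    exact (RingHom.map_det _ _).trans (congrArg Matrix.det (hW i φ))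
  · have h1 : (χ i).toRingHom.mapMatrix (ρT σ) = 1 := by
      rw [hW, hσ i, mul_one, Units.inv_mul]
    rw [← map_one (χ i).toRingHom.mapMatrix] at h1
    exact congrFun₂ h1 x y

end Fermat.Agent.HeckeRep
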