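import Fermat.Agent.HeckeRep.Local
import Fermat.Agent.HeckeRep.Points
import Fermat.Agent.HeckeAlg.S29FromS30
import Fermat.Agent.HeckeDatum.Reduction

/-!
# The Hecke Galois representation on the localised Hecke algebra

Given Galois representations at the points of the Hecke algebra (`HeckeAlg.GaloisRepOfPoint`):
for an absolutely irreducible residual representation attached to `θ`, the localised anemic Hecke
algebra carries a `HeckeGaloisRepDatum`, unramified outside the exceptional set.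
-/

set_option autoImplicit false

noncomputable section

open Polynomial
open scoped IsMulCommutative

namespace Fermat.Agent.HeckeRep

open IsLocalRing RepTheory

/-- Frobenius elements generate densely outside a finite set. -/
theorem frobGenerates (S : Finset ℕ) : FrobGenerates (↑S : Set ℕ) :=
  frobGenerates_finset HeckeDatum.frobeniusPowDense S

variable (p : ℕ) [Fact p.Prime] (N : ℕ) [NeZero N] (S : Finset ℕ)
  (O : Type) [CommRing O] [IsDomain O] [IsDiscreteValuationRing O]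
  (θ : CuspForm.heckeAlgebra N 2 (↑S : Set ℕ) →+* ResidueField O)

local notation "Th" => CuspForm.heckeLocal N (SetLike.coe S) O θ

/-- The trace of Frobenius at `ℓ` in the localised Hecke algebra. -/
def frobTrace (ℓ : ℕ) : Th :=
  if h : ℓ.Prime ∧ ¬ ℓ ∣ N ∧ ℓ ∉ (↑S : Set ℕ) then
    CuspForm.heckeLocal.π N (↑S : Set ℕ) O θ (CuspForm.heckeAlgebra.T h.1 h.2.1 h.2.2)
  else 0

theorem frobTrace_eq {ℓ : ℕ} (hℓ : ℓ.Prime) (hℓN : ¬ ℓ ∣ N) (hℓS : ℓ ∉ (↑S : Set ℕ)) :
    frobTrace N S O θ ℓ =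
      CuspForm.heckeLocal.π N (↑S : Set ℕ) O θ (CuspForm.heckeAlgebra.T hℓ hℓN hℓS) := by
  rw [frobTrace, dif_pos ⟨hℓ, hℓN, hℓS⟩]

/-- The points of the localised Hecke algebra carry representations. -/
theorem pointReps (h30 : HeckeAlg.GaloisRepOfPoint) (hpS : p ∈ S)
    (hNS : ∀ q : ℕ, q.Prime → q ∣ N → q ∈ S) (hpO : (p : O) ∈ maximalIdeal O) :
    PointReps O Th (↑S : Set ℕ) (frobTrace N S O θ) fun ℓ => (ℓ : Th) := by
  intro O' _ _ _ _ _ _ _ _ _ χ
  have hpO' : (p : O') ∈ maximalIdeal O' := by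
    rw [← map_natCast (algebraMap O O')]
    exact map_nonunit (algebraMap O O') _ hpO
  obtain ⟨O'', iR, iD, iDVR, _, _, _, iA, iF, _, hinj, ρ, hfrob, hunr⟩ :=
    h30 p N S hpS hNS O' hpO' (χ.toRingHom.comp (CuspForm.heckeLocal.π N (↑S : Set ℕ) O θ))
  refine ⟨O'', iR, iD, inferInstance, iA, iF, hinj, ρ, fun ℓ φ hφ => ?_, fun q hq hqS => ?_⟩
  · obtain ⟨hℓ, hℓS, P, hP, hPφ⟩ := hφ
    have hℓN : ¬ ℓ ∣ N := fun h => hℓS (hNS ℓ hℓ h)
    rw [hfrob ℓ hℓ hℓN hℓS P hP φ hPφ, frobTrace_eq N S O θ hℓ hℓN hℓS, map_natCast χ,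
      map_natCast (algebraMap O' O'')]
    rfl
  · exact hunr q hq (fun h => hqS (hNS q hq h)) fun h => hqS (h ▸ hpS)

variable [IsAdicComplete (maximalIdeal O) O] [Finite (ResidueField O)] [CharZero O]
  [Fact (CuspForm.HasIntegralStructure N 2)]

/-- **The Hecke Galois representation on the localised Hecke algebra.** -/
theorem exists_heckeGaloisRepDatum (h30 : HeckeAlg.GaloisRepOfPoint) (hpS : p ∈ S)
    (hNS : ∀ q : ℕ, q.Prime → q ∣ N → q ∈ S) (hpO : (p : O) ∈ maximalIdeal O)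
    (ρbar : ResidualGaloisRep (ResidueField O)) (habs : ρbar.IsAbsolutelyIrreducible)
    (hρbar : ∀ (ℓ : ℕ) (hℓ : ℓ.Prime) (hℓN : ¬ ℓ ∣ N) (hℓS : ℓ ∉ (↑S : Set ℕ)),
      ∀ A : ValuationSubring (AlgebraicClosure ℚ), A.LiesOverPrime ℓ →
        ∀ σ : AlgebraicClosure ℚ ≃ₐ[ℚ] AlgebraicClosure ℚ, A.IsFrobeniusAt σ ℓ →
          LinearMap.charpoly (ρbar.ρ σ) =
            X ^ 2 - C (θ (CuspForm.heckeAlgebra.T hℓ hℓN hℓS)) * X +
              C ((ℓ : ResidueField O))) :
    ∃ D : CuspForm.HeckeGaloisRepDatum N (↑S : Set ℕ) O θ Th,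
      D.π = CuspForm.heckeLocal.π N (↑S : Set ℕ) O θ ∧
        ∀ q : ℕ, q.Prime → q ∉ S → D.ρ.IsUnramifiedAt q := by
  have := isReduced_heckeLocal N (↑S : Set ℕ) O θ fun q hq h => Finset.mem_coe.2 (hNS q hq h)
  let e : ResidueField O →+* ResidueField Th := ResidueField.map (algebraMap O Th)
  obtain ⟨ρ, hρ, hirr, hunr⟩ := exists_adic_of_pointReps O
    (residue_surjective_local N (↑S : Set ℕ) O θ) (frobGenerates S) (frobTrace N S O θ)
    (fun ℓ => (ℓ : Th)) (pointReps p N S O θ h30 hpS hNS hpO) (ρbar.baseChangeAlong e)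
    (isAbsolutelyIrreducible_baseChangeAlong e ρbar habs)
    (fun ℓ φ hφ => by
      obtain ⟨hℓ, hℓS, P, hP, hPφ⟩ := hφ
      have hℓN : ¬ ℓ ∣ N := fun h => hℓS (hNS ℓ hℓ h)
      rw [HeckeAlg.charpoly_baseChangeAlong, hρbar ℓ hℓ hℓN hℓS P hP φ hPφ,
        frobTrace_eq N S O θ hℓ hℓN hℓS, residue_π, map_natCast (residue Th)]
      simp only [Polynomial.map_add, Polynomial.map_sub, Polynomial.map_mul, Polynomial.map_pow,
        map_X, map_C, map_natCast, Polynomial.map_natCast]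
      rfl)
  refine ⟨{ π := CuspForm.heckeLocal.π N (↑S : Set ℕ) O θ
            residue_π := residue_π N (↑S : Set ℕ) O θ
            adjoin_range_π := adjoin_range_π N (↑S : Set ℕ) O θ
            exists_point := exists_point N (↑S : Set ℕ) O θ
            residue_surjective := residue_surjective_local N (↑S : Set ℕ) O θ
            ρ := ρ
            charpoly_frob := fun ℓ hℓ hℓN hℓS A hA σ hσ => ?_
            residual_absIrr := hirr }, rfl, hunr⟩
  rw [hρ ℓ σ ⟨hℓ, hℓS, A, hA, hσ⟩, frobTrace_eq N S O θ hℓ hℓN hℓS]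

end Fermat.Agent.HeckeRep
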