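import Mathlib.RingTheory.Etale.Field
import Mathlib.RingTheory.Etale.Pi
import Mathlib.RingTheory.Artinian.Module
import Mathlib.RingTheory.TensorProduct.Free
import Mathlib.RingTheory.Flat.Basic
import Mathlib.FieldTheory.Perfect
import Mathlib.Algebra.Algebra.Rat

/-!
# Reducedness of base changes of reduced `ℤ`-orders

If `Λ` is a reduced ring, finite free over `ℤ`, and `O` is a domain of characteristic zero, then
`O ⊗ Λ` is reduced.
-/

set_option autoImplicit false

open scoped TensorProduct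

namespace Fermat.Agent.HeckeRep

variable (Λ : Type) [CommRing Λ] [Module.Free ℤ Λ] [IsReduced Λ]

omit [Module.Free ℤ Λ] [IsReduced Λ] in
theorem exists_int_smul_eq_one_tmul (x : ℚ ⊗[ℤ] Λ) :
    ∃ (n : ℤ) (l : Λ), n ≠ 0 ∧ n • x = (1 : ℚ) ⊗ₜ[ℤ] l := by
  induction x using TensorProduct.induction_on with
  | zero => exact ⟨1, 0, one_ne_zero, by simp⟩
  | tmul q l =>
    refine ⟨(q.den : ℤ), q.num • l, Int.natCast_ne_zero.2 q.den_nz, ?_⟩
    rw [TensorProduct.smul_tmul', TensorProduct.tmul_smul, TensorProduct.smul_tmul']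
    congr 1
    simp [mul_comm (q.den : ℚ)]
  | add x y hx hy =>
    obtain ⟨n, l, hn, hx⟩ := hx
    obtain ⟨m, l', hm, hy⟩ := hy
    refine ⟨n * m, m • l + n • l', mul_ne_zero hn hm, ?_⟩
    rw [smul_add, TensorProduct.tmul_add, TensorProduct.tmul_smul, TensorProduct.tmul_smul, ← hx,
      ← hy, smul_smul, smul_smul, mul_comm m n]

theorem isReduced_rat_tensor : IsReduced (ℚ ⊗[ℤ] Λ) := by
  refine ⟨fun x hx => ?_⟩
  obtain ⟨k, hk⟩ := hx
  obtain ⟨n, l, hn, hnl⟩ := exists_int_smul_eq_one_tmul Λ x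
  have hinc : Function.Injective (Algebra.TensorProduct.includeRight : Λ →ₐ[ℤ] ℚ ⊗[ℤ] Λ) :=
    Algebra.TensorProduct.includeRight_injective Int.cast_injective
  have hl : l = 0 := by
    refine IsReduced.eq_zero l ⟨k, hinc ?_⟩
    rw [map_pow, map_zero, Algebra.TensorProduct.includeRight_apply, ← hnl, smul_pow, hk, smul_zero]
  rw [hl, TensorProduct.tmul_zero] at hnl
  exact (smul_eq_zero_iff_right (Int.cast_ne_zero.2 hn : (n : ℚ) ≠ 0)).1
    (by rwa [Int.cast_smul_eq_zsmul])

theorem formallyEtale_rat_tensor [Module.Finite ℤ Λ] :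
    Algebra.FormallyEtale ℚ (ℚ ⊗[ℤ] Λ) := by
  have := isReduced_rat_tensor Λ
  have : IsArtinianRing (ℚ ⊗[ℤ] Λ) := IsArtinianRing.of_finite ℚ _
  have : ∀ I : MaximalSpectrum (ℚ ⊗[ℤ] Λ),
      Algebra.FormallyEtale ℚ ((ℚ ⊗[ℤ] Λ) ⧸ I.asIdeal) := fun I => by
    let := Ideal.Quotient.field I.asIdeal
    have : Algebra.IsAlgebraic ℚ ((ℚ ⊗[ℤ] Λ) ⧸ I.asIdeal) :=
      Algebra.IsAlgebraic.of_finite ℚ _
    exact Algebra.FormallyEtale.of_isSeparable ℚ _
  have : Algebra.FormallyEtale ℚ (∀ I : MaximalSpectrum (ℚ ⊗[ℤ] Λ),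
      (ℚ ⊗[ℤ] Λ) ⧸ I.asIdeal) := (Algebra.FormallyEtale.pi_iff _).2 this
  exact Algebra.FormallyEtale.of_equiv
    ((IsArtinianRing.equivPi (ℚ ⊗[ℤ] Λ)).restrictScalars ℚ).symm

/-- The algebra stays reduced after extending scalars to a field of characteristic zero. -/
theorem isReduced_tensor_field [Module.Finite ℤ Λ] (K : Type) [Field K] [CharZero K] :
    IsReduced (K ⊗[ℤ] Λ) := by
  have := formallyEtale_rat_tensor Λ
  have : IsReduced (K ⊗[ℚ] (ℚ ⊗[ℤ] Λ)) :=
    Algebra.FormallyUnramified.isReduced_of_field K (K ⊗[ℚ] (ℚ ⊗[ℤ] Λ))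
  exact isReduced_of_injective
    (Algebra.TensorProduct.cancelBaseChange ℤ ℚ K K Λ).symm (AlgEquiv.injective _)

theorem isReduced_tensor_of_injective [Module.Finite ℤ Λ] {A : Type} [CommRing A]
    {K : Type} [Field K] [CharZero K] (f : A →+* K) (hf : Function.Injective f) :
    IsReduced (A ⊗[ℤ] Λ) := by
  have := isReduced_tensor_field Λ K
  exact isReduced_of_injective (Algebra.TensorProduct.map f.toIntAlgHom (AlgHom.id ℤ Λ))
    (Module.Flat.rTensor_preserves_injective_linearMap (M := Λ) f.toIntAlgHom.toLinearMap hf)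

/-- A reduced finite free ring stays reduced over any domain of characteristic zero. -/
theorem isReduced_tensor_of_charZero [Module.Finite ℤ Λ] (A : Type) [CommRing A] [IsDomain A]
    [CharZero A] : IsReduced (A ⊗[ℤ] Λ) :=
  have : CharZero (FractionRing A) :=
    charZero_of_injective_algebraMap (IsFractionRing.injective A (FractionRing A))
  isReduced_tensor_of_injective Λ (algebraMap A (FractionRing A))
    (IsFractionRing.injective A (FractionRing A))

end Fermat.Agent.HeckeRep
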