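import Fermat.Agent.HeckeRep.Main
import Fermat.Agent.CuspIntStr.Main
import Fermat.Agent.KummerES.Assembly
import Fermat.Agent.KummerES.ModulesFinal

/-!
# The Hecke Galois representation in weight two

The representations at points are supplied by the Eichler–Shimura construction and the integral
structure by the `q`-expansion lattice, so the localised anemic Hecke algebra at an absolutely
irreducible residual representation carries a `HeckeGaloisRepDatum`.
-/

set_option autoImplicit false

noncomputable section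

open Polynomial
open scoped IsMulCommutative

namespace Fermat.Agent.HeckeRep

open IsLocalRing

/-- Every point of a weight-two Hecke algebra carries a `λ`-adic Galois representation. -/
theorem galoisRepOfPoint : HeckeAlg.GaloisRepOfPoint :=
  KummerES.exists_galoisRep_of_point_of_modules
    fun N _ p hp => KummerES.nonempty_gamma0Modules N p hp.out

/-- The integral structure in weight two, as a `Fact`. -/
theorem fact_hasIntegralStructure (N : ℕ) [NeZero N] :
    Fact (CuspForm.HasIntegralStructure N 2) :=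
  ⟨CuspIntStr.hasIntegralStructure N 2⟩

/-- **The Hecke Galois representation on the localised Hecke algebra.** -/
theorem nonempty_heckeGaloisRepDatum (p : ℕ) [Fact p.Prime] (N : ℕ) [NeZero N] (S : Finset ℕ)
    (O : Type) [CommRing O] [IsDomain O] [IsDiscreteValuationRing O]
    [IsAdicComplete (maximalIdeal O) O] [Finite (ResidueField O)] [CharZero O]
    (θ : CuspForm.heckeAlgebra N 2 (↑S : Set ℕ) →+* ResidueField O)
    [Fact (CuspForm.HasIntegralStructure N 2)]
    (hpS : p ∈ S) (hNS : ∀ q : ℕ, q.Prime → q ∣ N → q ∈ S) (hpO : (p : O) ∈ maximalIdeal O)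
    (ρbar : ResidualGaloisRep (ResidueField O)) (habs : ρbar.IsAbsolutelyIrreducible)
    (hρbar : ∀ (ℓ : ℕ) (hℓ : ℓ.Prime) (hℓN : ¬ ℓ ∣ N) (hℓS : ℓ ∉ (↑S : Set ℕ)),
      ∀ A : ValuationSubring (AlgebraicClosure ℚ), A.LiesOverPrime ℓ →
        ∀ σ : AlgebraicClosure ℚ ≃ₐ[ℚ] AlgebraicClosure ℚ, A.IsFrobeniusAt σ ℓ →
          LinearMap.charpoly (ρbar.ρ σ) =
            X ^ 2 - C (θ (CuspForm.heckeAlgebra.T hℓ hℓN hℓS)) * X +
              C ((ℓ : ResidueField O))) :
    ∃ D : CuspForm.HeckeGaloisRepDatum N (↑S : Set ℕ) O θ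
        (CuspForm.heckeLocal N (↑S : Set ℕ) O θ),
      D.π = CuspForm.heckeLocal.π N (↑S : Set ℕ) O θ ∧
        ∀ q : ℕ, q.Prime → q ∉ S → D.ρ.IsUnramifiedAt q :=
  exists_heckeGaloisRepDatum p N S O θ galoisRepOfPoint hpS hNS hpO ρbar habs hρbar

end Fermat.Agent.HeckeRep
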